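import Mathlib.Analysis.SpecialFunctions.Elliptic.Weierstrass
import Mathlib.Analysis.Analytic.Uniqueness
import Mathlib.Analysis.Normed.Module.Connected
import Mathlib.LinearAlgebra.Complex.FiniteDimensional

set_option autoImplicit false

/-!
# A lattice is determined by its Eisenstein numbers `G n`, `n ≥ 3`

If two period lattices have the same `G n` for every `n ≥ 3`, their Weierstrass `℘`-functions have
the same Laurent expansion at `0`, hence agree off the two lattices by the identity theorem, and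
therefore have the same poles.
-/

namespace Fermat.Agent.S20.H30

open Filter Topology
open scoped PeriodPair

theorem countable_lattice (L : PeriodPair) : (L.lattice : Set ℂ).Countable := by
  have : Countable L.lattice := L.latticeEquivProd.toEquiv.countable_iff.mpr inferInstance
  exact Set.countable_coe_iff.mp this

theorem weierstrassPExcept_zero_eventuallyEq (L L' : PeriodPair)
    (h : ∀ n, 3 ≤ n → L.G n = L'.G n) :
    L.weierstrassPExcept 0 =ᶠ[𝓝 0] L'.weierstrassPExcept 0 := by
  have h1 := L.hasFPowerSeriesAt_weierstrassPExcept 0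
  have h2 := L'.hasFPowerSeriesAt_weierstrassPExcept 0
  have hser : (FormalMultilinearSeries.ofScalars (𝕜 := ℂ) ℂ fun i : ℕ ↦
        if i = 0 then L'.weierstrassPExcept 0 0 else (i + 1) * L'.sumInvPow 0 (i + 2)) =
      (FormalMultilinearSeries.ofScalars (𝕜 := ℂ) ℂ fun i : ℕ ↦
        if i = 0 then L.weierstrassPExcept 0 0 else (i + 1) * L.sumInvPow 0 (i + 2)) := by
    congr 1
    funext i
    by_cases hi : i = 0
    · simp [hi]
    · simp only [hi, if_false, PeriodPair.sumInvPow_zero]
      rw [h (i + 2) (by omega)]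
  rw [hser] at h2
  have e1 := h1.eventually_hasSum
  have e2 := h2.eventually_hasSum
  filter_upwards [e1, e2] with y hy1 hy2
  simpa using hy1.unique hy2

theorem weierstrassP_eventuallyEq (L L' : PeriodPair)
    (h : ∀ n, 3 ≤ n → L.G n = L'.G n) :
    L.weierstrassP =ᶠ[𝓝 0] L'.weierstrassP := by
  filter_upwards [weierstrassPExcept_zero_eventuallyEq L L' h] with z hz
  have h1 := L.weierstrassPExcept_add (0 : L.lattice) z
  have h2 := L'.weierstrassPExcept_add (0 : L'.lattice) z
  simp only [ZeroMemClass.coe_zero] at h1 h2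
  rw [← h1, ← h2, hz]

theorem weierstrassP_eqOn (L L' : PeriodPair)
    (h : ∀ n, 3 ≤ n → L.G n = L'.G n) :
    Set.EqOn L.weierstrassP L'.weierstrassP ((L.lattice : Set ℂ) ∪ (L'.lattice : Set ℂ))ᶜ := by
  have hc : ((L.lattice : Set ℂ) ∪ (L'.lattice : Set ℂ)).Countable :=
    (countable_lattice L).union (countable_lattice L')
  have hconn : IsPreconnected ((L.lattice : Set ℂ) ∪ (L'.lattice : Set ℂ))ᶜ :=
    (hc.isPathConnected_compl_of_one_lt_rank (by simp)).isConnected.isPreconnected
  have hdense : Dense ((L.lattice : Set ℂ) ∪ (L'.lattice : Set ℂ))ᶜ := hc.dense_compl ℝ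
  have hev := weierstrassP_eventuallyEq L L' h
  obtain ⟨s, hs, hso, h0s⟩ := eventually_nhds_iff.mp hev
  obtain ⟨z₀, hz₀s, hz₀U⟩ := hdense.inter_open_nonempty s hso ⟨0, h0s⟩
  have hA : AnalyticOnNhd ℂ L.weierstrassP ((L.lattice : Set ℂ) ∪ (L'.lattice : Set ℂ))ᶜ :=
    L.analyticOnNhd_weierstrassP.mono (Set.compl_subset_compl.mpr Set.subset_union_left)
  have hA' : AnalyticOnNhd ℂ L'.weierstrassP ((L.lattice : Set ℂ) ∪ (L'.lattice : Set ℂ))ᶜ :=
    L'.analyticOnNhd_weierstrassP.mono (Set.compl_subset_compl.mpr Set.subset_union_right)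
  refine hA.eqOn_of_preconnected_of_eventuallyEq hA' hconn hz₀U ?_
  exact eventually_nhds_iff.mpr ⟨s, hs, hso, hz₀s⟩

theorem lattice_le_of_G_eq (L L' : PeriodPair) (h : ∀ n, 3 ≤ n → L.G n = L'.G n) :
    L.lattice ≤ L'.lattice := by
  intro x hx
  by_contra hx'
  have hord := L.order_weierstrassP x hx
  have han : AnalyticAt ℂ L'.weierstrassP x := L'.analyticOnNhd_weierstrassP x hx'
  have hnonneg := han.meromorphicOrderAt_nonneg
  have hcongr : L.weierstrassP =ᶠ[𝓝[≠] x] L'.weierstrassP := by
    have h1 : ((L.lattice : Set ℂ) \ {x})ᶜ ∈ 𝓝[≠] x :=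
      mem_nhdsWithin_of_mem_nhds (L.compl_lattice_sdiff_singleton_mem_nhds x)
    have h2 : ((L'.lattice : Set ℂ) \ {x})ᶜ ∈ 𝓝[≠] x :=
      mem_nhdsWithin_of_mem_nhds (L'.compl_lattice_sdiff_singleton_mem_nhds x)
    filter_upwards [h1, h2, self_mem_nhdsWithin] with z hz1 hz2 hz3
    apply weierstrassP_eqOn L L' h
    simp only [Set.mem_compl_iff, Set.mem_union, Set.mem_sdiff, Set.mem_singleton_iff, not_and,
      not_not, not_or] at hz1 hz2 hz3 ⊢
    exact ⟨fun hz => hz3 (hz1 hz), fun hz => hz3 (hz2 hz)⟩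
  rw [meromorphicOrderAt_congr hcongr] at hord
  rw [hord] at hnonneg
  exact absurd hnonneg (by decide)

/-- A period lattice is determined by its Eisenstein numbers `G n`, `n ≥ 3`. -/
theorem lattice_eq_of_G_eq (L L' : PeriodPair) (h : ∀ n, 3 ≤ n → L.G n = L'.G n) :
    L.lattice = L'.lattice :=
  le_antisymm (lattice_le_of_G_eq L L' h) (lattice_le_of_G_eq L' L fun n hn => (h n hn).symm)

end Fermat.Agent.S20.H30
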