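import Mathlib.NumberTheory.ModularForms.EisensteinSeries.QExpansion
import Mathlib.NumberTheory.ModularForms.EisensteinSeries.Basic
import Mathlib.NumberTheory.ModularForms.CongruenceSubgroups
import Fermat.Prelude.Def_ModularForm_HeckeOperator
import Fermat.Agent.S20.H30.LatticeG

set_option autoImplicit false

/-!
# Pointwise separation of cosets of `Γ₀(N)` by modular forms

For every `τ : ℍ` and every `γ ∈ SL(2,ℤ)` outside `Γ₀(N)` there is a modular form `f` on `Γ₀(N)`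
(of some weight `k`) with `(f ∣[k] γ) τ ≠ f τ`.  The forms used are `z ↦ E_k(N z)`; their
translates are Eisenstein lattice sums of index-`N` sublattices of `ℤ τ + ℤ`, and a lattice is
determined by all its Eisenstein sums (`lattice_eq_of_G_eq`).
-/

namespace Fermat.Agent.S20.H30

open UpperHalfPlane ModularForm CongruenceSubgroup Matrix.SpecialLinearGroup EisensteinSeries
open scoped MatrixGroups ModularForm

/-- The lattice sum `G k` in coordinates. -/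
theorem G_eq_tsum (L : PeriodPair) (k : ℕ) :
    L.G k = ∑' v : Fin 2 → ℤ, (((v 0 : ℂ) * L.ω₁ + (v 1 : ℂ) * L.ω₂) ^ k)⁻¹ := by
  rw [PeriodPair.G, ← L.latticeEquivProd.symm.toEquiv.tsum_eq, ← (finTwoArrowEquiv ℤ).symm.tsum_eq]
  refine tsum_congr fun x => ?_
  simp [PeriodPair.latticeEquiv_symm_apply]

/-- The period pair `(w u, u)` for `w ∈ ℍ` and `u ≠ 0`. -/
noncomputable def pairOf (w : ℍ) (u : ℂ) (hu : u ≠ 0) : PeriodPair where
  ω₁ := (w : ℂ) * u
  ω₂ := u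
  indep := by
    rw [LinearIndependent.pair_iff]
    intro s t h
    have h1 : ((s : ℂ) * w + t) * u = 0 := by
      rw [← h]
      simp only [Complex.real_smul]
      ring
    have h2 : (s : ℂ) * w + t = 0 := by
      rcases mul_eq_zero.mp h1 with h' | h'
      · exact h'
      · exact absurd h' hu
    have h3 := congrArg Complex.im h2
    simp only [Complex.add_im, Complex.mul_im, Complex.ofReal_re, Complex.ofReal_im, zero_mul,
      add_zero, Complex.zero_im] at h3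
    have hs : s = 0 := by
      rcases mul_eq_zero.mp h3 with h' | h'
      · exact h'
      · exact absurd h' w.im_pos.ne'
    subst hs
    refine ⟨rfl, ?_⟩
    simpa using h2

@[simp] theorem pairOf_ω₁ (w : ℍ) (u : ℂ) (hu : u ≠ 0) : (pairOf w u hu).ω₁ = (w : ℂ) * u := rfl
@[simp] theorem pairOf_ω₂ (w : ℍ) (u : ℂ) (hu : u ≠ 0) : (pairOf w u hu).ω₂ = u := rfl

theorem tsum_eisSummand_eq (k : ℕ) (hk : 3 ≤ k) (w : ℍ) :
    ∑' v : Fin 2 → ℤ, eisSummand k v w = 2 * riemannZeta k * E hk w := by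
  rw [tsum_eisSummand_eq_riemannZeta_mul_eisensteinSeries hk w]
  have : E hk w = (1 / 2 : ℂ) • eisensteinSeriesSIF (N := 1) 0 k w := rfl
  rw [this, eisensteinSeriesSIF_apply, smul_eq_mul]
  ring

theorem G_pairOf (w : ℍ) (u : ℂ) (hu : u ≠ 0) (k : ℕ) (hk : 3 ≤ k) :
    (pairOf w u hu).G k = (u ^ k)⁻¹ * (2 * riemannZeta k * E hk w) := by
  rw [G_eq_tsum, ← tsum_eisSummand_eq k hk w, ← tsum_mul_left]
  refine tsum_congr fun v => ?_
  simp only [pairOf_ω₁, pairOf_ω₂, eisSummand, zpow_neg, zpow_natCast]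
  rw [← mul_inv, ← mul_pow]
  congr 2
  ring


theorem mapGL_coe_apply (γ : SL(2, ℤ)) (i j : Fin 2) :
    ((mapGL ℝ γ : GL (Fin 2) ℝ) : Matrix (Fin 2) (Fin 2) ℝ) i j = ((γ i j : ℤ) : ℝ) := rfl

theorem det_eq_one' (γ : SL(2, ℤ)) : γ 0 0 * γ 1 1 - γ 0 1 * γ 1 0 = 1 := by
  have := γ.det_coe
  rw [Matrix.det_fin_two] at this
  exact this

/-- For `γ ∈ Γ₀(N)`, the conjugate `diag(N,1) γ diag(N,1)⁻¹` lies in `SL(2,ℤ)`. -/
theorem exists_conj_of_mem_Gamma0 (N : ℕ) [NeZero N] (γ : SL(2, ℤ)) (hγ : γ ∈ Gamma0 N) :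
    ∃ γ' : SL(2, ℤ), heckeDiagMatrix N * mapGL ℝ γ = mapGL ℝ γ' * heckeDiagMatrix N := by
  have hN : N ≠ 0 := NeZero.ne N
  rw [Gamma0_mem] at hγ
  obtain ⟨c', hc'⟩ : (N : ℤ) ∣ γ 1 0 := (ZMod.intCast_zmod_eq_zero_iff_dvd _ _).mp hγ
  have hdet := det_eq_one' γ
  have hdet' : γ 0 0 * γ 1 1 - N * γ 0 1 * c' = 1 := by rw [hc'] at hdet; linarith
  obtain ⟨γ', hγ'⟩ : ∃ γ' : SL(2, ℤ),
      (γ' : Matrix (Fin 2) (Fin 2) ℤ) = !![γ 0 0, N * γ 0 1; c', γ 1 1] :=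
    ⟨⟨!![γ 0 0, N * γ 0 1; c', γ 1 1], by rw [Matrix.det_fin_two_of]; exact hdet'⟩, rfl⟩
  refine ⟨γ', ?_⟩
  apply Units.ext
  ext i j
  have hc'' : ((γ 1 0 : ℤ) : ℝ) = (N : ℝ) * (c' : ℝ) := by rw [hc']; push_cast; ring
  simp only [Units.val_mul, Matrix.mul_apply, Fin.sum_univ_two, mapGL_coe_apply,
    val_heckeDiagMatrix hN, hγ']
  fin_cases i <;> fin_cases j <;> simp [hc''] <;> ring

open ConjAct Pointwise in
theorem Gamma0_le_conj (N : ℕ) [NeZero N] :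
    ((Gamma0 N : Subgroup SL(2, ℤ)) : Subgroup (GL (Fin 2) ℝ)) ≤
      toConjAct (heckeDiagMatrix N)⁻¹ • 𝒮ℒ := by
  rintro _ ⟨γ, hγ, rfl⟩
  rw [map_inv, Subgroup.mem_inv_pointwise_smul_iff, toConjAct_smul]
  obtain ⟨γ', hγ'⟩ := exists_conj_of_mem_Gamma0 N γ hγ
  exact ⟨γ', by rw [eq_mul_inv_iff_mul_eq]; exact hγ'.symm⟩

/-- The function `z ↦ N ^ (k - 1) * E_k (N z)` as a modular form of weight `k` on `Γ₀(N)`. -/
noncomputable def eisLevel (N : ℕ) [NeZero N] {k : ℕ} (hk : 3 ≤ k) : ModularForm (Gamma0 N) k where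
  toFun := (E hk : ℍ → ℂ) ∣[(k : ℤ)] heckeDiagMatrix N
  slash_action_eq' γ hγ :=
    (ModularForm.translate (E hk) (heckeDiagMatrix N)).slash_action_eq' γ (Gamma0_le_conj N hγ)
  holo' := (ModularForm.translate (E hk) (heckeDiagMatrix N)).holo'
  bdd_at_cusps' hc :=
    (ModularForm.translate (E hk) (heckeDiagMatrix N)).bdd_at_cusps' (hc.mono (Gamma0_le_conj N))

theorem eisLevel_apply (N : ℕ) [NeZero N] {k : ℕ} (hk : 3 ≤ k) (z : ℍ) :
    eisLevel N hk z = (N : ℂ) ^ ((k : ℤ) - 1) * E hk (heckeDiagMatrix N • z) :=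
  slash_heckeDiagMatrix_apply k (NeZero.ne N) _ z

/-- The translates of `eisLevel` are Eisenstein lattice sums. -/
theorem eisLevel_slash_apply (N : ℕ) [NeZero N] {k : ℕ} (hk : 3 ≤ k) (γ : SL(2, ℤ)) (τ : ℍ) :
    ((eisLevel N hk : ℍ → ℂ) ∣[(k : ℤ)] γ) τ =
      (N : ℂ) ^ ((k : ℤ) - 1) * (2 * riemannZeta k)⁻¹ *
        (pairOf (heckeDiagMatrix N • (γ • τ)) (denom γ τ) (denom_ne_zero γ τ)).G k := by
  have hz : riemannZeta k ≠ 0 :=
    riemannZeta_ne_zero_of_one_lt_re (by simp only [Complex.natCast_re]; exact_mod_cast (by omega : 1 < k))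
  rw [SL_slash_apply, eisLevel_apply, G_pairOf _ _ _ k hk, zpow_neg, zpow_natCast]
  field_simp

/-- **Pointwise separation.** For every `τ : ℍ` and every `γ ∉ Γ₀(N)` some modular form on `Γ₀(N)`
takes different values at `τ` than its `γ`-translate. -/
theorem exists_modularForm_slash_ne (N : ℕ) [NeZero N] (τ : ℍ) (γ : SL(2, ℤ))
    (hγ : γ ∉ Gamma0 N) :
    ∃ (k : ℕ) (f : ModularForm (Gamma0 N) k), ((f : ℍ → ℂ) ∣[(k : ℤ)] γ) τ ≠ f τ := by
  by_contra hcon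
  push Not at hcon
  have hN : N ≠ 0 := NeZero.ne N
  have hG : ∀ n, 3 ≤ n →
      (pairOf (heckeDiagMatrix N • (γ • τ)) (denom γ τ) (denom_ne_zero γ τ)).G n =
      (pairOf (heckeDiagMatrix N • ((1 : SL(2, ℤ)) • τ)) (denom (1 : SL(2, ℤ)) τ)
        (denom_ne_zero _ τ)).G n := by
    intro n hn
    have h1 := eisLevel_slash_apply N hn γ τ
    have h2 := eisLevel_slash_apply N hn 1 τ
    rw [SlashAction.slash_one] at h2
    have h3 := hcon n (eisLevel N hn)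
    rw [h1, h2] at h3
    have hz : riemannZeta n ≠ 0 :=
      riemannZeta_ne_zero_of_one_lt_re
        (by simp only [Complex.natCast_re]; exact_mod_cast (by omega : 1 < n))
    have hNC : (N : ℂ) ^ ((n : ℤ) - 1) ≠ 0 := zpow_ne_zero _ (by exact_mod_cast hN)
    have hc : (N : ℂ) ^ ((n : ℤ) - 1) * (2 * riemannZeta n)⁻¹ ≠ 0 :=
      mul_ne_zero hNC (inv_ne_zero (mul_ne_zero two_ne_zero hz))
    exact mul_left_cancel₀ hc h3
  have hlat := lattice_eq_of_G_eq _ _ hG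
  have hmem : denom γ τ ∈ (pairOf (heckeDiagMatrix N • ((1 : SL(2, ℤ)) • τ))
      (denom (1 : SL(2, ℤ)) τ) (denom_ne_zero _ τ)).lattice := by
    rw [← hlat]
    exact PeriodPair.ω₂_mem_lattice _
  obtain ⟨m, n, hmn⟩ := PeriodPair.mem_lattice.mp hmem
  simp only [pairOf_ω₁, pairOf_ω₂, one_smul, coe_heckeDiagMatrix_smul hN] at hmn
  have hd1 : denom (1 : SL(2, ℤ)) τ = 1 := by simp [denom]
  have hd : denom γ τ = (γ 1 0 : ℂ) * τ + γ 1 1 := by simp [denom]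
  rw [hd1, hd] at hmn
  have him := congrArg Complex.im hmn
  simp only [mul_one, Complex.add_im, Complex.mul_im, Complex.intCast_re, Complex.intCast_im,
    zero_mul, add_zero, Complex.natCast_re, Complex.natCast_im, Complex.mul_re, sub_zero,
    UpperHalfPlane.coe_im] at him
  have hτ : τ.im ≠ 0 := τ.im_pos.ne'
  have hc : ((γ 1 0 : ℤ) : ℝ) = (m : ℝ) * (N : ℝ) := by
    have : ((m : ℝ) * (N : ℝ) - ((γ 1 0 : ℤ) : ℝ)) * τ.im = 0 := by linarith
    rcases mul_eq_zero.mp this with h' | h'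
    · linarith
    · exact absurd h' hτ
  have hc' : (γ 1 0 : ℤ) = m * (N : ℤ) := by exact_mod_cast hc
  apply hγ
  rw [Gamma0_mem, hc']
  simp

end Fermat.Agent.S20.H30
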