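import Mathlib.RingTheory.Adjoin.Basic
import Fermat.Agent.S20.H30.Sep

set_option autoImplicit false

/-!
# Local generation on `ℍ`: value vectors of modular forms on `Γ₀(N)` span

For representatives `g i` of pairwise distinct right cosets `Γ₀(N) g i`, the vectors
`(f ∣[k] g i) τ` (`f` ranging over modular forms of all weights on `Γ₀(N)`) span `ι → ℂ`,
for every `τ : ℍ`.
-/

namespace Fermat.Agent.S20.H30

open UpperHalfPlane ModularForm CongruenceSubgroup Matrix.SpecialLinearGroup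
open scoped MatrixGroups ModularForm

/-- A unital subalgebra of `ι → ℂ` (`ι` finite) separating the points of `ι` is everything. -/
theorem subalgebra_eq_top_of_separates {ι : Type*} [Fintype ι] (A : Subalgebra ℂ (ι → ℂ))
    (h : ∀ i j, i ≠ j → ∃ a ∈ A, a i ≠ a j) : A = ⊤ := by
  classical
  have h' : ∀ i j, ∃ a ∈ A, i ≠ j → a i ≠ a j := by
    intro i j
    by_cases hij : i = j
    · exact ⟨1, A.one_mem, fun hne => absurd hij hne⟩
    · obtain ⟨a, ha, hne⟩ := h i j hij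
      exact ⟨a, ha, fun _ => hne⟩
  choose a haA ha using h'
  have key : ∀ i, (Pi.single i (1 : ℂ) : ι → ℂ) ∈ A := by
    intro i
    have hmem : (∏ j ∈ Finset.univ.erase i,
        ((a i j i - a i j j)⁻¹ • (a i j - algebraMap ℂ (ι → ℂ) (a i j j)))) ∈ A :=
      Subalgebra.prod_mem _ fun j _ =>
        A.smul_mem (A.sub_mem (haA i j) (A.algebraMap_mem _)) _
    have heq : (∏ j ∈ Finset.univ.erase i,
        ((a i j i - a i j j)⁻¹ • (a i j - algebraMap ℂ (ι → ℂ) (a i j j)))) =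
        Pi.single i (1 : ℂ) := by
      funext x
      rw [Finset.prod_apply]
      by_cases hx : x = i
      · subst hx
        rw [Pi.single_eq_same]
        refine Finset.prod_eq_one fun j hj => ?_
        have hne : x ≠ j := fun h => (Finset.mem_erase.mp hj).1 h.symm
        have := ha x j hne
        simp only [Pi.smul_apply, Pi.sub_apply, Pi.algebraMap_apply, Algebra.algebraMap_self,
          RingHom.id_apply, smul_eq_mul]
        exact inv_mul_cancel₀ (sub_ne_zero.mpr this)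
      · rw [Pi.single_eq_of_ne hx]
        refine Finset.prod_eq_zero (Finset.mem_erase.mpr ⟨hx, Finset.mem_univ x⟩) ?_
        simp
    rw [← heq]
    exact hmem
  rw [eq_top_iff]
  intro v _
  have hv : v = ∑ i, v i • (Pi.single i (1 : ℂ) : ι → ℂ) := by
    funext x
    simp [Finset.sum_apply, Pi.single_apply]
  rw [hv]
  exact A.sum_mem fun i _ => A.smul_mem (key i) _

/-- **Local generation on `ℍ`** (coset-representative form). -/
theorem span_values_eq_top (N : ℕ) [NeZero N] {ι : Type*} [Fintype ι] (g : ι → SL(2, ℤ))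
    (hg : ∀ i j, i ≠ j → g i * (g j)⁻¹ ∉ Gamma0 N) (τ : ℍ) :
    Submodule.span ℂ {v : ι → ℂ | ∃ (k : ℕ) (f : ModularForm (Gamma0 N) k),
        v = fun i => ((f : ℍ → ℂ) ∣[(k : ℤ)] g i) τ} = ⊤ := by
  set S : Set (ι → ℂ) := {v : ι → ℂ | ∃ (k : ℕ) (f : ModularForm (Gamma0 N) k),
        v = fun i => ((f : ℍ → ℂ) ∣[(k : ℤ)] g i) τ} with hS
  -- `S` is a submonoid
  have hone : (1 : ι → ℂ) ∈ S := by
    refine ⟨0, mcast (Nat.cast_zero).symm (1 : ModularForm (Gamma0 N) 0), ?_⟩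
    funext i
    have : ((mcast (Nat.cast_zero).symm (1 : ModularForm (Gamma0 N) 0) :
        ModularForm (Gamma0 N) ((0 : ℕ) : ℤ)) : ℍ → ℂ) = 1 := rfl
    rw [this]
    have h2 := is_invariant_one (g i)
    simp only [Nat.cast_zero]
    rw [h2]
    rfl
  have hmul : ∀ v ∈ S, ∀ w ∈ S, v * w ∈ S := by
    rintro v ⟨k, f, rfl⟩ w ⟨l, f', rfl⟩
    refine ⟨k + l, mcast (Nat.cast_add k l).symm (f.mul f'), ?_⟩
    funext i
    have : ((mcast (Nat.cast_add k l).symm (f.mul f') :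
        ModularForm (Gamma0 N) ((k + l : ℕ) : ℤ)) : ℍ → ℂ) = (f : ℍ → ℂ) * (f' : ℍ → ℂ) := rfl
    rw [this]
    simp only [Nat.cast_add]
    rw [mul_slash_SL2]
    rfl
  let M : Submonoid (ι → ℂ) :=
    { carrier := S
      one_mem' := hone
      mul_mem' := fun {v w} hv hw => hmul v hv w hw }
  have hclosure : (Submonoid.closure S : Set (ι → ℂ)) = S := by
    have : Submonoid.closure (M : Set (ι → ℂ)) = M := Submonoid.closure_eq M
    exact congrArg (fun T : Submonoid (ι → ℂ) => (T : Set (ι → ℂ))) this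
  have hspan : Submodule.span ℂ S = Subalgebra.toSubmodule (Algebra.adjoin ℂ S) := by
    rw [Algebra.adjoin_eq_span, hclosure]
  rw [hspan]
  have htop : Algebra.adjoin ℂ S = ⊤ := by
    apply subalgebra_eq_top_of_separates
    intro i j hij
    obtain ⟨k, f, hf⟩ := exists_modularForm_slash_ne N (g j • τ) (g i * (g j)⁻¹) (hg i j hij)
    refine ⟨fun i => ((f : ℍ → ℂ) ∣[(k : ℤ)] g i) τ, Algebra.subset_adjoin ⟨k, f, rfl⟩, ?_⟩
    intro heq
    apply hf
    replace heq : ((f : ℍ → ℂ) ∣[(k : ℤ)] g i) τ = ((f : ℍ → ℂ) ∣[(k : ℤ)] g j) τ := heq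
    have h1 : ((f : ℍ → ℂ) ∣[(k : ℤ)] g i) τ =
        (((f : ℍ → ℂ) ∣[(k : ℤ)] (g i * (g j)⁻¹)) ∣[(k : ℤ)] g j) τ := by
      rw [← SlashAction.slash_mul, inv_mul_cancel_right]
    have h2 : (((f : ℍ → ℂ) ∣[(k : ℤ)] (g i * (g j)⁻¹)) ∣[(k : ℤ)] g j) τ =
        ((f : ℍ → ℂ) ∣[(k : ℤ)] (g i * (g j)⁻¹)) (g j • τ) * denom (g j) τ ^ (-(k : ℤ)) :=
      SL_slash_apply _ (g j) τ
    have h3 : ((f : ℍ → ℂ) ∣[(k : ℤ)] g j) τ = f (g j • τ) * denom (g j) τ ^ (-(k : ℤ)) :=
      SL_slash_apply _ (g j) τ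
    rw [h1, h2, h3] at heq
    have hd : denom (g j) τ ^ (-(k : ℤ)) ≠ 0 := zpow_ne_zero _ (denom_ne_zero _ τ)
    exact mul_right_cancel₀ hd heq
  rw [htop]
  simp

end Fermat.Agent.S20.H30
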