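import Fermat.Agent.S20.Defs
import Fermat.Agent.S20.H30.Span

set_option autoImplicit false

/-!
# Local generation on `ℍ` in the coset vocabulary of `Fermat.Agent.S20.Defs`

* `span_valVec_eq_top`: for every `τ : ℍ` the value vectors `valVec f τ`, `f` a modular form of
  any weight on `Γ₀(N)`, span `X N → ℂ`.
* `span_valVec_of_generates`: if a finite family `F j` generates all modular forms on `Γ₀(N)` over
  level-one forms, then the vectors `valVec (F j) τ` span `X N → ℂ`, for every `τ`.
-/

namespace Fermat.Agent.S20.H30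

open UpperHalfPlane ModularForm CongruenceSubgroup Matrix.SpecialLinearGroup
open scoped MatrixGroups ModularForm

variable {N : ℕ}

theorem valVec_eq_slash_out {k : ℤ} (f : ModularForm (Γ0 N) k) (τ : ℍ) :
    valVec f τ = fun c : X N => ((f : ℍ → ℂ) ∣[k] (Quotient.out c)⁻¹) τ := by
  funext c
  show cosetFun f c τ = _
  conv_lhs => rw [← QuotientGroup.out_eq' c]
  rfl

/-- **Local generation on `ℍ`.** The value vectors of modular forms on `Γ₀(N)` span `X N → ℂ`
at every point of the upper half plane. -/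
theorem span_valVec_eq_top (N : ℕ) [NeZero N] (τ : ℍ) :
    Submodule.span ℂ {v : X N → ℂ | ∃ (k : ℕ) (f : ModularForm (Γ0 N) k), v = valVec f τ} = ⊤ := by
  have hg : ∀ i j : X N, i ≠ j →
      (Quotient.out i)⁻¹ * ((Quotient.out j)⁻¹)⁻¹ ∉ Gamma0 N := by
    intro i j hij hmem
    apply hij
    rw [inv_inv] at hmem
    have := (QuotientGroup.eq (s := Gamma0 N) (a := Quotient.out i) (b := Quotient.out j)).mpr hmem
    rwa [QuotientGroup.out_eq', QuotientGroup.out_eq'] at this
  have h := span_values_eq_top N (fun c : X N => (Quotient.out c)⁻¹) hg τ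
  rw [← h]
  congr 1
  ext v
  constructor
  · rintro ⟨k, f, rfl⟩
    exact ⟨k, f, valVec_eq_slash_out f τ⟩
  · rintro ⟨k, f, rfl⟩
    exact ⟨k, f, (valVec_eq_slash_out f τ).symm⟩

/-- Coset translates of a combination `∑ r j * F j` with level-one coefficients. -/
theorem cosetFun_eq_sum_of_eq_sum [NeZero N] {J : Type*} [Fintype J] {a : J → ℤ}
    (F : ∀ j, ModularForm (Γ0 N) (a j)) {k : ℤ} (f : ModularForm (Γ0 N) k)
    (r : ∀ j, ModularForm 𝒮ℒ (k - a j)) (h : ∀ τ, f τ = ∑ j, r j τ * F j τ) (c : X N) (τ : ℍ) :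
    cosetFun f c τ = ∑ j, r j τ * cosetFun (F j) c τ := by
  induction c using QuotientGroup.induction_on with
  | H g =>
    simp only [cosetFun_mk]
    rw [SL_slash_apply, h, Finset.sum_mul]
    refine Finset.sum_congr rfl fun j _ => ?_
    rw [SL_slash_apply]
    have hr : (r j : ℍ → ℂ) ∣[k - a j] g⁻¹ = r j :=
      SlashInvariantFormClass.slash_action_eq (r j) _ ⟨g⁻¹, rfl⟩
    have hr' := congrFun hr τ
    rw [SL_slash_apply] at hr'
    rw [← hr']
    rw [neg_sub]
    have key : ∀ (x y d : ℂ), d ≠ 0 →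
        x * y * d ^ (-k) = x * d ^ (a j - k) * (y * d ^ (-a j)) := by
      intro x y d hd
      rw [show (-k : ℤ) = (a j - k) + (-a j) by ring, zpow_add₀ hd]
      ring
    exact key _ _ _ (denom_ne_zero _ τ)

/-- If the family `F` generates the modular forms on `Γ₀(N)` over level-one forms, then its value
vectors span `X N → ℂ` at every point of `ℍ`. -/
theorem span_valVec_of_generates [NeZero N] {J : Type*} [Fintype J] {a : J → ℤ}
    (F : ∀ j, ModularForm (Γ0 N) (a j))
    (hgen : ∀ (k : ℤ) (f : ModularForm (Γ0 N) k), ∃ r : ∀ j, ModularForm 𝒮ℒ (k - a j),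
      ∀ τ, f τ = ∑ j, r j τ * F j τ) (τ : ℍ) :
    Submodule.span ℂ (Set.range fun j => valVec (F j) τ) = ⊤ := by
  rw [eq_top_iff, ← span_valVec_eq_top N τ]
  apply Submodule.span_le.mpr
  rintro v ⟨k, f, rfl⟩
  obtain ⟨r, hr⟩ := hgen k f
  have hv : valVec f τ = ∑ j, r j τ • valVec (F j) τ := by
    funext c
    simp only [valVec, Finset.sum_apply, Pi.smul_apply, smul_eq_mul]
    exact cosetFun_eq_sum_of_eq_sum F f r hr c τ
  rw [hv]
  exact Submodule.sum_mem _ fun j _ =>
    Submodule.smul_mem _ _ (Submodule.subset_span ⟨j, rfl⟩)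

/-- A generating family has at least `μ = |X N|` members. -/
theorem card_le_card_of_generates [NeZero N] {J : Type*} [Fintype J] {a : J → ℤ}
    (F : ∀ j, ModularForm (Γ0 N) (a j))
    (hgen : ∀ (k : ℤ) (f : ModularForm (Γ0 N) k), ∃ r : ∀ j, ModularForm 𝒮ℒ (k - a j),
      ∀ τ, f τ = ∑ j, r j τ * F j τ) :
    Fintype.card (X N) ≤ Fintype.card J := by
  have h := span_valVec_of_generates F hgen UpperHalfPlane.I
  have h1 := finrank_range_le_card (R := ℂ) (fun j => valVec (F j) UpperHalfPlane.I)
  rw [Set.finrank, h, finrank_top, Module.finrank_pi] at h1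
  exact h1

/-- If a family indexed by the cosets generates the modular forms on `Γ₀(N)` over level-one forms,
then its matrix of coset translates is invertible at every point of `ℍ`. -/
theorem det_frameMatrix_ne_zero_of_generates [NeZero N] {a : X N → ℤ}
    (F : ∀ x, ModularForm (Γ0 N) (a x))
    (hgen : ∀ (k : ℤ) (f : ModularForm (Γ0 N) k), ∃ r : ∀ x, ModularForm 𝒮ℒ (k - a x),
      ∀ τ, f τ = ∑ x, r x τ * F x τ) (τ : ℍ) :
    (frameMatrix F τ).det ≠ 0 := by
  have h := span_valVec_of_generates F hgen τ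
  have hli : LinearIndependent ℂ (fun x => valVec (F x) τ) :=
    linearIndependent_of_top_le_span_of_card_eq_finrank h.ge (by rw [Module.finrank_pi])
  have hcol : (frameMatrix F τ).col = fun x => valVec (F x) τ := by
    funext x c
    rfl
  rw [← hcol, Matrix.linearIndependent_cols_iff_isUnit, Matrix.isUnit_iff_isUnit_det] at hli
  exact hli.ne_zero

end Fermat.Agent.S20.H30
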